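/-
S29 / helper222 — piece ESK, final adapter: the `RawESStatement` of the S29 row
(`Fermat/Agent/S29/Parts.lean`, input `hES` of `Main.S29_of_parts`) from the S18 hub at PRIME
moduli only:

* `CorePrimeFamily` : `S18.CoreStatement N A p` for primes `ℓ ∤ N`, primes `p ≠ ℓ`, `A` over `ℓ`.

All other inputs of ESK are discharged from main: PGI (`S37.H98.gen`), NormId (`S37.H819.normId`),
HI (`S29.H812.heckeInputsAlong`).  No S37, no place reduction map, no commutativity of Hecke
operators, no passage to composite moduli.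
-/
import Fermat.Agent.S29.H222.ESKAdapterPGI
import Fermat.Agent.S29.Parts

set_option autoImplicit false
set_option linter.style.haveILetI false

noncomputable section

namespace Fermat.Agent.S29.H222

open ModularCurve AlgebraicCurve
open Fermat.Agent.S18 (Qb CoreStatement)

/-- Row S18: the Kummer core at prime moduli `p ≠ ℓ`, for all `ℓ ∤ N` and all places over `ℓ`. -/
def CorePrimeFamily : Prop :=
  ∀ (N : ℕ) [NeZero N] (ℓ : ℕ), ℓ.Prime → ¬ ℓ ∣ N → ∀ p : ℕ, p.Prime → ¬ ℓ ∣ p →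
    ∀ A : ValuationSubring Qb, A.LiesOverPrime ℓ → CoreStatement N A p

theorem corePrimeFamily_of_coreFamily (h : CoreFamily) : CorePrimeFamily :=
  fun N _ ℓ hℓ hℓN p _ hℓp A hA => h N ℓ hℓ hℓN p hℓp A hA

/-- **RawES of the S29 row from the S18 hub at prime moduli.** -/
theorem rawESStatement_of_corePrime (hcore : CorePrimeFamily) :
    Fermat.Agent.S29.RawESStatement := by
  intro N p _ hp ℓ hℓ hℓNp A hA
  haveI : NeZero ℓ := ⟨hℓ.ne_zero⟩
  have hℓN : ¬ ℓ ∣ N := fun h => hℓNp (Dvd.dvd.mul_right h p)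
  have hℓp : ¬ ℓ ∣ p := fun h => hℓNp (Dvd.dvd.mul_left h N)
  have hc := hcore N ℓ hℓ hℓN p hp hℓp A hA
  have hpgi := pgiFamily N ℓ hℓ hℓN A hA
  exact ⟨fun σ hσ x hx => esk_inertia N p hp.ne_zero A hc hpgi σ hσ x hx,
    fun σ hσ x hx => esk_frob N ℓ hℓ p hp.ne_zero A hA hc hpgi
      (hiFamily N ℓ hℓ hℓN) (normIdFamily N ℓ hℓ hℓN) σ hσ x hx⟩

end Fermat.Agent.S29.H222
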