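/-
S29 / helper222 — piece ESK, wiring to the S18 board: `CorePrimeFamily` (hence `RawESStatement`
of the S29 row and `M.ESStatement`-type inputs) from the TWO OPEN NODES of the S18 skeleton
(`origin/helper18:Fermat/Agent/S18/Integ/Skeleton.lean`), taken as hypotheses in their exact
node types:

* `NodeMod` : `Mod.GoodModelStatement M ℓ A` for `ℓ ∤ M`, `A` over `ℓ`      (node_mod)
* `NodeAlg` : `Mod.AlgStatement M`                                          (node_alg)

The closed nodes are taken from main: `H333.node_coord`, `H965.node_glue`, `H568.node_d2`.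
-/
import Fermat.Agent.S29.H222.ESKRawES
import Fermat.Agent.S18.Mod.Defs
import Fermat.Agent.S18.H568.D2
import Fermat.Agent.S18.H965.Glue
import Fermat.Agent.S18.H333.Coord

set_option autoImplicit false
set_option linter.style.haveILetI false

noncomputable section

namespace Fermat.Agent.S29.H222

open ModularCurve AlgebraicCurve
open Fermat.Agent.S18 (Qb CoreStatement)

/-- The open node `node_mod` of the S18 skeleton, for all levels and places. -/
def NodeMod : Prop :=
  ∀ (M : ℕ) [NeZero M] {ℓ : ℕ} [Fact ℓ.Prime], ¬ ℓ ∣ M →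
    ∀ A : ValuationSubring Qb, A.LiesOverPrime ℓ → Fermat.Agent.S18.Mod.GoodModelStatement M ℓ A

/-- The open node `node_alg` of the S18 skeleton, for all levels. -/
def NodeAlg : Prop := ∀ M : ℕ, Fermat.Agent.S18.Mod.AlgStatement M

/-- The level at which good reduction is proved (`levelM` of the S18 skeleton). -/
def eskLevel (N ℓ : ℕ) : ℕ := if ℓ = 3 then Nat.lcm N 2 else if ℓ = 2 then Nat.lcm N 3 else N

theorem eskLevel_ne_zero (N ℓ : ℕ) [NeZero N] : eskLevel N ℓ ≠ 0 := by
  unfold eskLevel
  split_ifs <;> simp [NeZero.ne N]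

theorem not_dvd_eskLevel (N : ℕ) {ℓ : ℕ} (hp : ℓ.Prime) (hℓN : ¬ ℓ ∣ N) :
    ¬ ℓ ∣ eskLevel N ℓ := by
  unfold eskLevel
  split_ifs with h3 h2
  · subst h3
    intro h
    have := (Nat.Prime.dvd_mul (by norm_num : Nat.Prime 3)).mp (h.trans (Nat.lcm_dvd_mul N 2))
    rcases this with h | h
    · exact hℓN h
    · omega
  · subst h2
    intro h
    have := (Nat.Prime.dvd_mul (by norm_num : Nat.Prime 2)).mp (h.trans (Nat.lcm_dvd_mul N 3))
    rcases this with h | h
    · exact hℓN h
    · omega
  · exact hℓN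

/-- The S18 hub at prime moduli from the two open nodes of the S18 skeleton. -/
theorem corePrimeFamily_of_nodes (hmod : NodeMod) (halg : NodeAlg) : CorePrimeFamily := by
  intro N _ ℓ hℓ hℓN p hp hℓp A hA
  haveI : Fact ℓ.Prime := ⟨hℓ⟩
  haveI : NeZero (eskLevel N ℓ) := ⟨eskLevel_ne_zero N ℓ⟩
  have hℓM := not_dvd_eskLevel N hℓ hℓN
  have h3 : ℓ = 3 → 2 ∣ eskLevel N ℓ := fun h => by
    unfold eskLevel; rw [if_pos h]; exact Nat.dvd_lcm_right N 2
  have h2 : ℓ = 2 → 3 ∣ eskLevel N ℓ := fun h => by
    unfold eskLevel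
    rw [if_neg (by omega), if_pos h]; exact Nat.dvd_lcm_right N 3
  have hcoreM : CoreStatement (eskLevel N ℓ) A p :=
    Fermat.Agent.S18.H965.node_glue (eskLevel N ℓ) hℓM A hA p hp hℓp
      (Fermat.Agent.S18.H333.node_coord (eskLevel N ℓ) hℓM h3 h2)
      (hmod (eskLevel N ℓ) hℓM A hA) (halg (eskLevel N ℓ))
  exact Fermat.Agent.S18.H568.node_d2 N hℓN A hA p hℓp hcoreM

/-- **RawES of the S29 row from the two open nodes of the S18 skeleton.** -/
theorem rawESStatement_of_nodes (hmod : NodeMod) (halg : NodeAlg) :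
    Fermat.Agent.S29.RawESStatement :=
  rawESStatement_of_corePrime (corePrimeFamily_of_nodes hmod halg)

end Fermat.Agent.S29.H222
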